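/-
S41 / C6 [IHARA-assembly] (helper95), core: from the plug `CSPPlug` (every homomorphism
`Γ₀(N)[1/q] → ℤ/p` kills a principal congruence subgroup of level prime to `q`) and the landed
amalgam `Amalgam95.ihara_glue`:

two homomorphisms `x y : Γ₀(N) → ℤ/p` with `x (δ g' δ⁻¹) = y g'` on `Γ₀(Nq)` (`δ = diag(q,1)`)
both kill `Γ₀(N) ∩ Γ(M)` for some `M` prime to `q`.
-/
import Fermat.Agent.S41.Amalgam95.Amalgam

set_option autoImplicit false
set_option linter.unusedSectionVars false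

namespace Fermat.Agent.S41.Ihara95

open Matrix Fermat.Agent.S41.Amalgam95

/-- `x ∈ M ℤ[1/q]` -/
def IsCongZero (q M : ℕ) (x : ℚ) : Prop := ∃ r : ℚ, IsAway q r ∧ x = (M : ℚ) * r

/-- `g ≡ 1 mod M ℤ[1/q]` -/
def IsPrincipal (q M : ℕ) (g : SLQ) : Prop :=
  IsCongZero q M (g 0 0 - 1) ∧ IsCongZero q M (g 0 1) ∧ IsCongZero q M (g 1 0) ∧
    IsCongZero q M (g 1 1 - 1)

/-- **[CSP] plug**: every homomorphism `Γ₀(N)[1/q] → ℤ/p` kills the principal congruence subgroup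
of some level `M` prime to `q`. -/
def CSPPlug (N q p : ℕ) : Prop :=
  ∀ Φ : ↥(DeltaQ N q) →* Multiplicative (ZMod p), ∃ M : ℕ, 0 < M ∧ Nat.Coprime M q ∧
    ∀ g : ↥(DeltaQ N q), IsPrincipal q M (g : SLQ) → Φ g = 1

lemma isCongZero_of_int_dvd (q M : ℕ) (c : ℤ) (h : (M : ℤ) ∣ c) : IsCongZero q M (c : ℚ) := by
  obtain ⟨r, rfl⟩ := h
  exact ⟨(r : ℚ), IsAway.of_int r, by push_cast; ring⟩

lemma IsCongZero.div_q {q M : ℕ} (hq : q ≠ 0) {x : ℚ} (h : IsCongZero q M x) :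
    IsCongZero q M (x / q) := by
  obtain ⟨r, hr, rfl⟩ := h
  exact ⟨r / q, hr.div_q hq, by ring⟩

lemma IsCongZero.q_mul {q M : ℕ} {x : ℚ} (h : IsCongZero q M x) :
    IsCongZero q M ((q : ℚ) * x) := by
  obtain ⟨r, hr, rfl⟩ := h
  exact ⟨(q : ℚ) * r, (IsAway.of_int (q := q) (q : ℤ)).mul hr |> fun h => by simpa using h, by ring⟩

/-- entries of an element of `Γ(M)` -/
lemma Gamma_entries (M : ℕ) (g : Matrix.SpecialLinearGroup (Fin 2) ℤ)
    (hg : g ∈ CongruenceSubgroup.Gamma M) :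
    (M : ℤ) ∣ g 0 0 - 1 ∧ (M : ℤ) ∣ g 0 1 ∧ (M : ℤ) ∣ g 1 0 ∧ (M : ℤ) ∣ g 1 1 - 1 := by
  rw [CongruenceSubgroup.Gamma_mem] at hg
  obtain ⟨h00, h01, h10, h11⟩ := hg
  refine ⟨?_, ?_, ?_, ?_⟩
  · rw [← ZMod.intCast_zmod_eq_zero_iff_dvd]; push_cast; rw [h00]; ring
  · rw [← ZMod.intCast_zmod_eq_zero_iff_dvd]; exact h01
  · rw [← ZMod.intCast_zmod_eq_zero_iff_dvd]; exact h10
  · rw [← ZMod.intCast_zmod_eq_zero_iff_dvd]; push_cast; rw [h11]; ring

lemma isPrincipal_castSL (q M : ℕ) (g : Matrix.SpecialLinearGroup (Fin 2) ℤ)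
    (hg : g ∈ CongruenceSubgroup.Gamma M) : IsPrincipal q M (castSL g) := by
  obtain ⟨h00, h01, h10, h11⟩ := Gamma_entries M g hg
  refine ⟨?_, ?_, ?_, ?_⟩
  · have := isCongZero_of_int_dvd q M _ h00
    simpa [castSL_apply] using this
  · simpa [castSL_apply] using isCongZero_of_int_dvd q M _ h01
  · simpa [castSL_apply] using isCongZero_of_int_dvd q M _ h10
  · have := isCongZero_of_int_dvd q M _ h11
    simpa [castSL_apply] using this

lemma isPrincipal_conj_castSL (q M : ℕ) (hq : q ≠ 0) (g : Matrix.SpecialLinearGroup (Fin 2) ℤ)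
    (hg : g ∈ CongruenceSubgroup.Gamma M) : IsPrincipal q M (conjδ q hq (castSL g)) := by
  obtain ⟨h00, h01, h10, h11⟩ := isPrincipal_castSL q M g hg
  rw [conjδ_apply]
  refine ⟨?_, ?_, ?_, ?_⟩
  · rw [conjFun_00]; exact h00
  · rw [conjFun_01]; exact h01.q_mul
  · rw [conjFun_10]; exact h10.div_q hq
  · rw [conjFun_11]; exact h11

variable (N q p : ℕ) [hqp : Fact q.Prime] (hqN : ¬ q ∣ N)

include hqN in
/-- **Ihara, multiplicative form.** -/
theorem ihara_congruence_mul (hCSP : CSPPlug N q p)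
    (x y : ↥(CongruenceSubgroup.Gamma0 N) →* Multiplicative (ZMod p))
    (hxy : ∀ g g' : ↥(CongruenceSubgroup.Gamma0 N),
      castSL (g : _) = conjδ q (q_ne_zero q) (castSL (g' : _)) → x g = y g') :
    ∃ M : ℕ, 0 < M ∧ Nat.Coprime M q ∧
      (∀ g : ↥(CongruenceSubgroup.Gamma0 N),
        (g : Matrix.SpecialLinearGroup (Fin 2) ℤ) ∈ CongruenceSubgroup.Gamma M → x g = 1) ∧
      (∀ g : ↥(CongruenceSubgroup.Gamma0 N),
        (g : Matrix.SpecialLinearGroup (Fin 2) ℤ) ∈ CongruenceSubgroup.Gamma M → y g = 1) := by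
  obtain ⟨Φ, ⟨h1, h2⟩, -⟩ := ihara_glue N q hqN x y hxy
  obtain ⟨M, hM0, hMq, hM⟩ := hCSP Φ
  refine ⟨M, hM0, hMq, ?_, ?_⟩
  · intro g hg
    rw [← h1 g]
    exact hM _ (isPrincipal_castSL q M _ hg)
  · intro g hg
    rw [← h2 g]
    exact hM _ (isPrincipal_conj_castSL q M (q_ne_zero q) _ hg)

include hqN in
/-- **Ihara, additive `ℤ/p` form.** -/
theorem ihara_congruence (hCSP : CSPPlug N q p)
    (x y : Additive ↥(CongruenceSubgroup.Gamma0 N) →+ ZMod p)
    (hxy : ∀ g g' : ↥(CongruenceSubgroup.Gamma0 N),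
      castSL (g : _) = conjδ q (q_ne_zero q) (castSL (g' : _)) →
        x (Additive.ofMul g) = y (Additive.ofMul g')) :
    ∃ M : ℕ, 0 < M ∧ Nat.Coprime M q ∧
      (∀ g : ↥(CongruenceSubgroup.Gamma0 N),
        (g : Matrix.SpecialLinearGroup (Fin 2) ℤ) ∈ CongruenceSubgroup.Gamma M →
          x (Additive.ofMul g) = 0) ∧
      (∀ g : ↥(CongruenceSubgroup.Gamma0 N),
        (g : Matrix.SpecialLinearGroup (Fin 2) ℤ) ∈ CongruenceSubgroup.Gamma M →
          y (Additive.ofMul g) = 0) := by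
  obtain ⟨M, hM0, hMq, hx, hy⟩ := ihara_congruence_mul N q p hqN hCSP
    (AddMonoidHom.toMultiplicative x) (AddMonoidHom.toMultiplicative y)
    (fun g g' h => congrArg Multiplicative.ofAdd (hxy g g' h))
  refine ⟨M, hM0, hMq, ?_, ?_⟩
  · intro g hg
    exact congrArg Multiplicative.toAdd (hx g hg)
  · intro g hg
    exact congrArg Multiplicative.toAdd (hy g hg)

include hqN in
/-- **Ihara, `ℤ`-lattice form**: two integral homomorphisms on `Γ₀(N)` whose degeneracy images agree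
mod `p` on `Γ₀(Nq)` are both divisible by `p` on `Γ₀(N) ∩ Γ(M)`, some `M` prime to `q`. -/
theorem ihara_congruence_int (hCSP : CSPPlug N q p)
    (x y : Additive ↥(CongruenceSubgroup.Gamma0 N) →+ ℤ)
    (hxy : ∀ g g' : ↥(CongruenceSubgroup.Gamma0 N),
      castSL (g : _) = conjδ q (q_ne_zero q) (castSL (g' : _)) →
        (p : ℤ) ∣ x (Additive.ofMul g) - y (Additive.ofMul g')) :
    ∃ M : ℕ, 0 < M ∧ Nat.Coprime M q ∧
      (∀ g : ↥(CongruenceSubgroup.Gamma0 N),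
        (g : Matrix.SpecialLinearGroup (Fin 2) ℤ) ∈ CongruenceSubgroup.Gamma M →
          (p : ℤ) ∣ x (Additive.ofMul g)) ∧
      (∀ g : ↥(CongruenceSubgroup.Gamma0 N),
        (g : Matrix.SpecialLinearGroup (Fin 2) ℤ) ∈ CongruenceSubgroup.Gamma M →
          (p : ℤ) ∣ y (Additive.ofMul g)) := by
  obtain ⟨M, hM0, hMq, hx, hy⟩ := ihara_congruence N q p hqN hCSP
    ((Int.castAddHom (ZMod p)).comp x) ((Int.castAddHom (ZMod p)).comp y) (by
      intro g g' h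
      have := hxy g g' h
      rw [← ZMod.intCast_zmod_eq_zero_iff_dvd] at this
      push_cast at this
      simpa [sub_eq_zero] using this)
  refine ⟨M, hM0, hMq, ?_, ?_⟩
  · intro g hg
    have := hx g hg
    rw [← ZMod.intCast_zmod_eq_zero_iff_dvd]
    simpa using this
  · intro g hg
    have := hy g hg
    rw [← ZMod.intCast_zmod_eq_zero_iff_dvd]
    simpa using this

end Fermat.Agent.S41.Ihara95
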