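/-
S41 / C6 [IHARA-assembly] (helper95), concrete end: the degeneracy dictionary between helper15's
`Hecke15.degRes`, `Hecke15.degConj` and the amalgam gluing condition of `Amalgam95.ihara_glue`, and
**Ihara's lemma `hI` in the literal operators** `TX N ℤ ℓ`, `degRes`, `degConj`:

`x, y ∈ L = parabolicHoms ℤ Γ₀(N) ℤ`, `degRes x + degConj y = p • w`  ⟹  outside a finite set of
primes `ℓ`: `(T_ℓ - (ℓ+1)) x ∈ p L` and `(T_ℓ - (ℓ+1)) y ∈ p L`  — from the single plug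
`Ihara73.CSPPlug N q p` (C4).
-/
import Fermat.Agent.S41.Hecke15.Degen
import Fermat.Agent.S41.EisStrict32.Plug
import Fermat.Agent.S41.Ihara73.Core

set_option autoImplicit false

namespace Fermat.Agent.S41.Ihara95

open ModularCurve.Period CongruenceSubgroup Fermat.Agent.S41.Amalgam95
open Fermat.Agent.S41.Hecke15
open Fermat.Agent.S16.HeckeHom24 (dvd_of_mem_Gamma0 mem_Gamma0_of_dvd)
open scoped MatrixGroups

variable {N q : ℕ}

/-- entries of `g = δ g' δ⁻¹` (`δ = diag(q,1)`) for integral `g, g'`. -/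
lemma entries_of_conj (hq : q ≠ 0) (g g' : SL(2, ℤ))
    (h : castSL g = conjδ q hq (castSL g')) :
    g 0 0 = g' 0 0 ∧ g 0 1 = (q : ℤ) * g' 0 1 ∧ g' 1 0 = (q : ℤ) * g 1 0 ∧ g 1 1 = g' 1 1 := by
  have hq' : (q : ℚ) ≠ 0 := by exact_mod_cast hq
  have e00 := congrArg (fun m : SLQ => m 0 0) h
  have e01 := congrArg (fun m : SLQ => m 0 1) h
  have e10 := congrArg (fun m : SLQ => m 1 0) h
  have e11 := congrArg (fun m : SLQ => m 1 1) h
  simp only [conjδ_apply, conjFun_00, conjFun_01, conjFun_10, conjFun_11, castSL_apply] at e00 e01 e10 e11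
  refine ⟨by exact_mod_cast e00, by exact_mod_cast e01, ?_, by exact_mod_cast e11⟩
  have : ((g' 1 0 : ℤ) : ℚ) = (q : ℚ) * ((g 1 0 : ℤ) : ℚ) := by
    rw [e10]; field_simp
  exact_mod_cast this

/-- `g = δ g' δ⁻¹` with `g ∈ Γ₀(N)` forces `g' ∈ Γ₀(N q)`. -/
lemma mem_Gamma0_mul_of_conj (hq : q ≠ 0) (g g' : ↥(Gamma0 N))
    (h : castSL (g : SL(2, ℤ)) = conjδ q hq (castSL (g' : SL(2, ℤ)))) :
    (g' : SL(2, ℤ)) ∈ Gamma0 (N * q) := by
  obtain ⟨-, -, h10, -⟩ := entries_of_conj hq _ _ h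
  have hN : ((N : ℕ) : ℤ) ∣ (g : SL(2, ℤ)) 1 0 := dvd_of_mem_Gamma0 g.2
  apply mem_Gamma0_of_dvd
  rw [h10]
  obtain ⟨c, hc⟩ := hN
  exact ⟨c, by rw [hc]; push_cast; ring⟩

/-- **degeneracy dictionary**: `degRes x + degConj y = p • w` gives the gluing congruence. -/
theorem hxy_of_degen (hq : 0 < q) {p : ℕ} (x y : Additive ↥(Gamma0 N) →+ ℤ)
    (w : Additive ↥(Gamma0 (N * q)) →+ ℤ)
    (h : degRes (Dvd.intro q rfl) ℤ x + degConj hq ℤ y = (p : ℤ) • w) :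
    ∀ g g' : ↥(Gamma0 N),
      castSL (g : SL(2, ℤ)) = conjδ q hq.ne' (castSL (g' : SL(2, ℤ))) →
        (p : ℤ) ∣ x (Additive.ofMul g') + y (Additive.ofMul g) := by
  intro g g' hgg'
  obtain ⟨h00, h01, h10, h11⟩ := entries_of_conj hq.ne' _ _ hgg'
  let γ' : ↥(Gamma0 (N * q)) := ⟨(g' : SL(2, ℤ)), mem_Gamma0_mul_of_conj hq.ne' g g' hgg'⟩
  have h1 : degRes (Dvd.intro q rfl) ℤ x (Additive.ofMul γ') = x (Additive.ofMul g') := by
    rw [degRes_apply]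
    congr 2
  have h2 : degConj hq ℤ y (Additive.ofMul γ') = y (Additive.ofMul g) := by
    apply degConj_apply_int hq y γ' g
    show (!![(q : ℤ), 0; 0, 1] : Matrix (Fin 2) (Fin 2) ℤ) *
        ((g' : SL(2, ℤ)) : Matrix (Fin 2) (Fin 2) ℤ) =
      ((g : SL(2, ℤ)) : Matrix (Fin 2) (Fin 2) ℤ) * !![(q : ℤ), 0; 0, 1]
    ext i j
    fin_cases i <;> fin_cases j <;>
      simp [Matrix.mul_apply, Fin.sum_univ_two, h00, h01, h10, h11] <;> ring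
  have h3 := congrArg (fun φ : Additive ↥(Gamma0 (N * q)) →+ ℤ => φ (Additive.ofMul γ')) h
  simp only [AddMonoidHom.add_apply, AddMonoidHom.smul_apply] at h3
  rw [h1, h2] at h3
  exact ⟨_, h3⟩

/-- **Ihara's lemma `hI`, literal operators**, from the plug `Ihara73.CSPPlug` alone. -/
theorem ihara_hI_degen [NeZero N] [hqp : Fact q.Prime] {p : ℕ} [Fact p.Prime] (hqN : ¬ q ∣ N)
    (hCSP : Fermat.Agent.S41.Ihara73.CSPPlug N q p)
    {x y : Additive ↥(Gamma0 N) →+ ℤ}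
    (hx : x ∈ parabolicHoms ℤ (Gamma0 N) ℤ) (hy : y ∈ parabolicHoms ℤ (Gamma0 N) ℤ)
    (w : Additive ↥(Gamma0 (N * q)) →+ ℤ)
    (h : degRes (Dvd.intro q rfl) ℤ x + degConj hqp.out.pos ℤ y = (p : ℤ) • w) :
    ∃ B : Finset ℕ, ∀ ℓ : ℕ, ℓ.Prime → ℓ ∉ B →
      (∃ w' ∈ parabolicHoms ℤ (Gamma0 N) ℤ, TX N ℤ ℓ x - ((ℓ : ℤ) + 1) • x = (p : ℤ) • w') ∧
      (∃ w' ∈ parabolicHoms ℤ (Gamma0 N) ℤ, TX N ℤ ℓ y - ((ℓ : ℤ) + 1) • y = (p : ℤ) • w') :=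
  Fermat.Agent.S41.Ihara73.ihara_hI hqN (Fact.out : p.Prime).ne_zero hCSP
    (fun ℓ => TX N ℤ ℓ) (Fermat.Agent.S41.EisStrict32.eisStrictPlug N p)
    (fun ℓ _ hφ => TX_mem_parabolicHoms ℤ ℓ hφ) hx hy
    (hxy_of_degen hqp.out.pos x y w h)

end Fermat.Agent.S41.Ihara95
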